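import Fermat.Agent.S14.Density.BoundDeg

/-!
# S14 / Density: finitely many bad primes, and the combined bound (worker file)
-/

set_option autoImplicit false

namespace Fermat.Agent.S14.Density

open NumberField Ideal

variable (K : Type*) [Field K] [NumberField K]

/-- `1/2 ≤ 1 - N(P)^(-s)` at nonzero primes (`s > 1`). -/
theorem bound_half_le_one_sub_nterm {s : ℝ} (hs : 1 < s) {P : Ideal (𝓞 K)} (hP : P.IsPrime)
    (hP0 : P ≠ ⊥) : (2 : ℝ)⁻¹ ≤ 1 - nterm K s P := by
  have h0 : absNorm P ≠ 0 := by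
    rw [Ne, Ideal.absNorm_eq_zero_iff]
    exact hP0
  have h1 : absNorm P ≠ 1 := by
    rw [Ne, Ideal.absNorm_eq_one_iff]
    exact hP.ne_top
  have h2 : 2 ≤ absNorm P := by omega
  have h2' : (2 : ℝ) ≤ (absNorm P : ℝ) := by exact_mod_cast h2
  have h3 : (absNorm P : ℝ) ≤ (absNorm P : ℝ) ^ s :=
    Real.self_le_rpow_of_one_le (by linarith) hs.le
  have h4 : (2 : ℝ) ≤ (absNorm P : ℝ) ^ s := h2'.trans h3
  have h5 : nterm K s P ≤ 2⁻¹ := by
    unfold nterm
    exact inv_anti₀ (by norm_num) h4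
  have : (2 : ℝ)⁻¹ = 1 - 2⁻¹ := by norm_num
  linarith

/-- The Euler factors are `≤ 2` at nonzero primes (`s > 1`). -/
theorem bound_eulerFactor_le_two {s : ℝ} (hs : 1 < s) {P : Ideal (𝓞 K)} (hP : P.IsPrime)
    (hP0 : P ≠ ⊥) : eulerFactor K s P ≤ 2 := by
  unfold eulerFactor
  calc (1 - nterm K s P)⁻¹ ≤ (2 : ℝ)⁻¹⁻¹ :=
        inv_anti₀ (by norm_num) (bound_half_le_one_sub_nterm K hs hP hP0)
    _ = 2 := inv_inv _

/-- Nonnegativity of the Euler factors at the members of `primesLE K X`. -/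
theorem bound_eulerFactor_nonneg_of_mem {s : ℝ} (hs : 1 < s) {X : ℕ} {P : Ideal (𝓞 K)}
    (hP : P ∈ primesLE K X) : 0 ≤ eulerFactor K s P := by
  rw [mem_primesLE] at hP
  unfold eulerFactor
  have h := bound_half_le_one_sub_nterm K hs hP.1 hP.2.1
  exact inv_nonneg.mpr (le_trans (by norm_num) h)

/-- The primes with norm in a given finite set `S`: uniformly bounded partial Euler products. -/
theorem exists_bound_bad (S : Finset ℕ) :
    ∃ C : ℝ, 1 ≤ C ∧ ∀ s : ℝ, 1 < s → ∀ X : ℕ,
      ∏ P ∈ (primesLE K X).filter (fun P ↦ (absNorm P).Prime ∧ absNorm P ∈ S), eulerFactor K s P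
        ≤ C := by
  refine ⟨2 ^ (primesLE K (S.sup id)).card, one_le_pow₀ (by norm_num), fun s hs X => ?_⟩
  calc ∏ P ∈ (primesLE K X).filter (fun P ↦ (absNorm P).Prime ∧ absNorm P ∈ S),
          eulerFactor K s P
      ≤ ∏ _P ∈ (primesLE K X).filter (fun P ↦ (absNorm P).Prime ∧ absNorm P ∈ S), (2 : ℝ) := by
        refine Finset.prod_le_prod (fun P hP => ?_) (fun P hP => ?_)
        · exact bound_eulerFactor_nonneg_of_mem K hs (Finset.mem_of_mem_filter P hP)
        · rw [Finset.mem_filter, mem_primesLE] at hP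
          exact bound_eulerFactor_le_two K hs hP.1.1 hP.1.2.1
    _ = 2 ^ ((primesLE K X).filter (fun P ↦ (absNorm P).Prime ∧ absNorm P ∈ S)).card := by
        rw [Finset.prod_const]
    _ ≤ 2 ^ (primesLE K (S.sup id)).card := by
        refine pow_le_pow_right₀ (by norm_num) (Finset.card_le_card ?_)
        intro P hP
        rw [Finset.mem_filter, mem_primesLE] at hP
        rw [mem_primesLE]
        exact ⟨hP.1.1, hP.1.2.1, Finset.le_sup (f := id) hP.2.2⟩

/-- Splitting of a product over a finset according to "norm not prime", "norm prime and in `S`",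
"norm prime and not in `S`". -/
theorem bound_prod_split (S : Finset ℕ) (A : Finset (Ideal (𝓞 K))) (f : Ideal (𝓞 K) → ℝ) :
    ∏ P ∈ A, f P =
      (∏ P ∈ A.filter (fun P ↦ ¬ (absNorm P).Prime), f P) *
        ((∏ P ∈ A.filter (fun P ↦ (absNorm P).Prime ∧ absNorm P ∈ S), f P) *
          ∏ P ∈ A.filter (fun P ↦ (absNorm P).Prime ∧ absNorm P ∉ S), f P) := by
  simp only [Finset.prod_filter, ← Finset.prod_mul_distrib]
  refine Finset.prod_congr rfl (fun P _ => ?_)
  by_cases h1 : (absNorm P).Prime <;> by_cases h2 : absNorm P ∈ S <;> simp [h1, h2]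

/-- Combination: the partial Euler product over all primes of norm `≤ X` is bounded by a constant
times the partial Euler product over the "good" primes (prime norm `∉ S`). -/
theorem exists_bound_good (S : Finset ℕ) :
    ∃ C : ℝ, 1 ≤ C ∧ ∀ s : ℝ, 1 < s → ∀ X : ℕ,
      ∏ P ∈ primesLE K X, eulerFactor K s P ≤
        C * ∏ P ∈ (primesLE K X).filter (fun P ↦ (absNorm P).Prime ∧ absNorm P ∉ S),
          eulerFactor K s P := by
  obtain ⟨C, hC1, hC⟩ := exists_bound_bad K S
  refine ⟨C * 2 ^ Module.finrank ℚ K, ?_, fun s hs X => ?_⟩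
  · exact one_le_mul_of_one_le_of_one_le hC1 (one_le_pow₀ (by norm_num))
  · rw [bound_prod_split K S (primesLE K X) (fun P ↦ eulerFactor K s P)]
    have hD := prod_eulerFactor_deg_ge_two_le K hs X
    have hB := hC s hs X
    have hG : 0 ≤ ∏ P ∈ (primesLE K X).filter (fun P ↦ (absNorm P).Prime ∧ absNorm P ∉ S),
        eulerFactor K s P :=
      Finset.prod_nonneg fun P hP =>
        bound_eulerFactor_nonneg_of_mem K hs (Finset.mem_of_mem_filter P hP)
    have hB0 : 0 ≤ ∏ P ∈ (primesLE K X).filter (fun P ↦ (absNorm P).Prime ∧ absNorm P ∈ S),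
        eulerFactor K s P :=
      Finset.prod_nonneg fun P hP =>
        bound_eulerFactor_nonneg_of_mem K hs (Finset.mem_of_mem_filter P hP)
    calc (∏ P ∈ (primesLE K X).filter (fun P ↦ ¬ (absNorm P).Prime), eulerFactor K s P) *
          ((∏ P ∈ (primesLE K X).filter (fun P ↦ (absNorm P).Prime ∧ absNorm P ∈ S),
              eulerFactor K s P) *
            ∏ P ∈ (primesLE K X).filter (fun P ↦ (absNorm P).Prime ∧ absNorm P ∉ S),
              eulerFactor K s P)
        ≤ 2 ^ Module.finrank ℚ K *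
          (C * ∏ P ∈ (primesLE K X).filter (fun P ↦ (absNorm P).Prime ∧ absNorm P ∉ S),
              eulerFactor K s P) :=
          mul_le_mul hD (mul_le_mul_of_nonneg_right hB hG) (mul_nonneg hB0 hG) (by positivity)
      _ = C * 2 ^ Module.finrank ℚ K *
          ∏ P ∈ (primesLE K X).filter (fun P ↦ (absNorm P).Prime ∧ absNorm P ∉ S),
              eulerFactor K s P := by ring

end Fermat.Agent.S14.Density
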