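import Fermat.Agent.S14.Density.Defs

/-!
# S14 / Density: the final real-analysis contradiction (worker file)
-/

set_option autoImplicit false

namespace Fermat.Agent.S14.Density

open Filter Topology

/-- If `(s-1) f(s) → a > 0` and `(s-1) g(s) → b` as `s ↓ 1`, then `f(s)^d ≤ C * g(s)` for all
`s > 1` is impossible when `d ≥ 2`. -/
theorem false_of_pow_le {f g : ℝ → ℝ} {a b C : ℝ} {d : ℕ} (hd : 2 ≤ d) (ha : 0 < a)
    (hf : Tendsto (fun s : ℝ ↦ (s - 1) * f s) (𝓝[>] 1) (𝓝 a))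
    (hg : Tendsto (fun s : ℝ ↦ (s - 1) * g s) (𝓝[>] 1) (𝓝 b))
    (h : ∀ s : ℝ, 1 < s → f s ^ d ≤ C * g s) : False := by
  obtain ⟨k, rfl⟩ : ∃ k, d = k + 2 := ⟨d - 2, by omega⟩
  -- `(s - 1) ^ (k + 1) → 0` as `s ↓ 1`
  have h0 : Tendsto (fun s : ℝ ↦ (s - 1) ^ (k + 1)) (𝓝[>] 1) (𝓝 0) := by
    have hc : Continuous (fun s : ℝ ↦ (s - 1) ^ (k + 1)) := by fun_prop
    have h1 : Tendsto (fun s : ℝ ↦ (s - 1) ^ (k + 1)) (𝓝 1) (𝓝 (((1 : ℝ) - 1) ^ (k + 1))) :=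
      hc.tendsto 1
    have h2 : ((1 : ℝ) - 1) ^ (k + 1) = 0 := by
      rw [sub_self]
      exact zero_pow (Nat.succ_ne_zero k)
    rw [h2] at h1
    exact tendsto_nhdsWithin_of_tendsto_nhds h1
  -- the left-hand side tends to `a ^ (k + 2)`
  have hL : Tendsto (fun s : ℝ ↦ ((s - 1) * f s) ^ (k + 2)) (𝓝[>] 1) (𝓝 (a ^ (k + 2))) :=
    hf.pow (k + 2)
  -- the right-hand side tends to `C * 0 * b = 0`
  have hR : Tendsto (fun s : ℝ ↦ C * (s - 1) ^ (k + 1) * ((s - 1) * g s)) (𝓝[>] 1)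
      (𝓝 (C * 0 * b)) :=
    (h0.const_mul C).mul hg
  -- the inequality, multiplied by `(s - 1) ^ (k + 2) > 0`
  have hle : ∀ᶠ s in 𝓝[>] (1 : ℝ),
      ((s - 1) * f s) ^ (k + 2) ≤ C * (s - 1) ^ (k + 1) * ((s - 1) * g s) := by
    filter_upwards [self_mem_nhdsWithin] with s hs
    have hs1 : (1 : ℝ) < s := hs
    have hs' : (0 : ℝ) < s - 1 := sub_pos.mpr hs1
    have hmul : (s - 1) ^ (k + 2) * f s ^ (k + 2) ≤ (s - 1) ^ (k + 2) * (C * g s) :=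
      mul_le_mul_of_nonneg_left (h s hs1) (pow_pos hs' (k + 2)).le
    calc ((s - 1) * f s) ^ (k + 2) = (s - 1) ^ (k + 2) * f s ^ (k + 2) := mul_pow _ _ _
      _ ≤ (s - 1) ^ (k + 2) * (C * g s) := hmul
      _ = C * (s - 1) ^ (k + 1) * ((s - 1) * g s) := by ring
  have hfin : a ^ (k + 2) ≤ C * 0 * b := le_of_tendsto_of_tendsto hL hR hle
  have hpos : 0 < a ^ (k + 2) := pow_pos ha (k + 2)
  rw [mul_zero, zero_mul] at hfin
  exact absurd hfin (not_le.mpr hpos)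

end Fermat.Agent.S14.Density
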