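import Fermat.Agent.S14.Density.Defs

/-!
# S14 / Density: the primes above a completely split prime (worker file, algebraic)
-/

set_option autoImplicit false

namespace Fermat.Agent.S14.Density

open NumberField Ideal
open scoped Pointwise

/-- A prime of `M` above the nonzero prime `P` of `N` with trivial decomposition group has inertia
degree `1` (`|D| = |I| * f`). -/
theorem split_inertiaDeg_eq_one (N M : Type*) [Field N] [NumberField N] [Field M] [NumberField M]
    [Algebra N M] [IsGalois N M] (P : Ideal (𝓞 N)) (hP : P.IsPrime) (hP0 : P ≠ ⊥)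
    (Q : Ideal (𝓞 M)) (hQ : Q.IsPrime) (hQP : Q.LiesOver P)
    (hstab : MulAction.stabilizer (M ≃ₐ[N] M) Q = ⊥) : Q.inertiaDeg (𝓞 N) = 1 := by
  have hmax : P.IsMaximal := hP.isMaximal hP0
  have hfin : Finite (𝓞 N ⧸ P) := Ideal.finiteQuotientOfFreeOfNeBot P hP0
  have hfin' : Finite P.ResidueField := inferInstance
  have hperf : PerfectField P.ResidueField := inferInstance
  have key := Ideal.card_stabilizer_eq_card_inertia_mul_finrank (G := M ≃ₐ[N] M) P Q
  rw [hstab] at key
  have h1 : Nat.card (⊥ : Subgroup (M ≃ₐ[N] M)) = 1 := by simp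
  rw [h1] at key
  exact Nat.eq_one_of_mul_eq_one_left key.symm

/-- If the nonzero prime `P` of `N` splits completely in the Galois extension `M/N`, then there are
`[M : N]` distinct primes of `M` above `P`, all of the same absolute norm as `P`. -/
theorem exists_finset_above (N M : Type*) [Field N] [NumberField N] [Field M] [NumberField M]
    [Algebra N M] [IsGalois N M] (P : Ideal (𝓞 N)) (hP : P.IsPrime) (hP0 : P ≠ ⊥)
    (h : SplitsCompletely N M P) :
    ∃ T : Finset (Ideal (𝓞 M)), T.card = Module.finrank N M ∧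
      ∀ Q ∈ T, Q.IsPrime ∧ Q ≠ ⊥ ∧ Q.LiesOver P ∧ absNorm Q = absNorm P := by
  classical
  obtain ⟨⟨Q₀, hQ₀prime, hQ₀over⟩⟩ := Ideal.nonempty_primesOver (S := 𝓞 M) P
  have hstab₀ : MulAction.stabilizer (M ≃ₐ[N] M) Q₀ = ⊥ := h Q₀ hQ₀prime hQ₀over
  refine ⟨Finset.univ.image (fun σ : M ≃ₐ[N] M => σ • Q₀), ?_, ?_⟩
  · rw [Finset.card_image_of_injective, Finset.card_univ, ← Nat.card_eq_fintype_card,
      IsGalois.card_aut_eq_finrank]
    intro σ τ hστ
    have hmem : τ⁻¹ * σ ∈ MulAction.stabilizer (M ≃ₐ[N] M) Q₀ := by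
      rw [MulAction.mem_stabilizer_iff, mul_smul]
      change τ⁻¹ • (σ • Q₀) = Q₀
      rw [show σ • Q₀ = τ • Q₀ from hστ, inv_smul_smul]
    rw [hstab₀, Subgroup.mem_bot] at hmem
    exact (inv_mul_eq_one.mp hmem).symm
  · intro Q hQ
    obtain ⟨σ, -, rfl⟩ := Finset.mem_image.mp hQ
    have hprime : (σ • Q₀).IsPrime := inferInstance
    have hover : (σ • Q₀).LiesOver P := inferInstance
    refine ⟨hprime, ?_, hover, ?_⟩
    · exact Ideal.ne_bot_of_liesOver_of_ne_bot hP0 (σ • Q₀)
    · have hdeg : (σ • Q₀).inertiaDeg (𝓞 N) = 1 := by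
        rw [Ideal.inertiaDeg_smul]
        exact split_inertiaDeg_eq_one N M P hP hP0 Q₀ hQ₀prime hQ₀over hstab₀
      have := Ideal.absNorm_pow_inertiaDeg P (σ • Q₀)
      rw [hdeg, pow_one] at this
      exact this.symm

end Fermat.Agent.S14.Density
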