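import Fermat.Agent.S14.Density.Euler
import Fermat.Agent.S14.Density.Split
import Fermat.Agent.S14.Density.Bound
import Fermat.Agent.S14.Density.Limit

/-!
# S14 / Density: main theorem (assembly)
-/

set_option autoImplicit false

namespace Fermat.Agent.S14.Density

open NumberField Ideal Filter Topology
open scoped Pointwise

/-- Auxiliary: for a finite set `G` of nonzero primes of `N` splitting completely in `M`, there is
a finite set `T` of nonzero primes of `M`, each lying over some element of `G`, whose Euler product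
is the `[M : N]`-th power of the Euler product over `G`. -/
theorem main_exists_finset (N M : Type*) [Field N] [NumberField N] [Field M] [NumberField M]
    [Algebra N M] [IsGalois N M] (s : ℝ) (G : Finset (Ideal (𝓞 N)))
    (hG : ∀ P ∈ G, P.IsPrime ∧ P ≠ ⊥ ∧ SplitsCompletely N M P) :
    ∃ T : Finset (Ideal (𝓞 M)), (∀ Q ∈ T, Q.IsPrime ∧ Q ≠ ⊥ ∧ ∃ P ∈ G, Q.LiesOver P) ∧
      ∏ Q ∈ T, eulerFactor M s Q = (∏ P ∈ G, eulerFactor N s P) ^ Module.finrank N M := by
  classical
  induction G using Finset.induction_on with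
  | empty => exact ⟨∅, by simp, by simp⟩
  | insert P G hPG ih =>
    obtain ⟨T, hT, hprod⟩ := ih (fun P' hP' => hG P' (Finset.mem_insert_of_mem hP'))
    obtain ⟨hP, hP0, hsp⟩ := hG P (Finset.mem_insert_self P G)
    obtain ⟨T', hcard, hT'⟩ := exists_finset_above N M P hP hP0 hsp
    have hdisj : Disjoint T' T := by
      rw [Finset.disjoint_left]
      intro Q hQ' hQ
      obtain ⟨-, -, P', hP'G, hQP'⟩ := hT Q hQ
      obtain ⟨-, -, hQP, -⟩ := hT' Q hQ'
      have hPP' : P = P' := by rw [hQP.over, hQP'.over]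
      exact hPG (hPP' ▸ hP'G)
    refine ⟨T' ∪ T, ?_, ?_⟩
    · intro Q hQ
      rcases Finset.mem_union.mp hQ with hQ | hQ
      · obtain ⟨h1, h2, h3, -⟩ := hT' Q hQ
        exact ⟨h1, h2, P, Finset.mem_insert_self P G, h3⟩
      · obtain ⟨h1, h2, P', hP', h3⟩ := hT Q hQ
        exact ⟨h1, h2, P', Finset.mem_insert_of_mem hP', h3⟩
    · rw [Finset.prod_union hdisj, Finset.prod_insert hPG, mul_pow, hprod]
      congr 1
      rw [← hcard, ← Finset.prod_const]
      apply Finset.prod_congr rfl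
      intro Q hQ
      obtain ⟨-, -, -, hn⟩ := hT' Q hQ
      simp only [eulerFactor, nterm, hn]

/-- Auxiliary: `zetaR K s` is nonnegative. -/
theorem main_zetaR_nonneg (K : Type*) [Field K] [NumberField K] (s : ℝ) : 0 ≤ zetaR K s :=
  tsum_nonneg fun _ => div_nonneg (Nat.cast_nonneg _) (Real.rpow_nonneg (Nat.cast_nonneg _) _)

/-- If all primes of `N` of prime norm `∉ S` split completely in `M` (Galois over `N` of degree
`d`), then every partial Euler product of `N` over such primes, raised to the power `d`, is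
bounded by `zetaR M s`. -/
theorem prod_good_pow_le_zetaR (N M : Type*) [Field N] [NumberField N] [Field M] [NumberField M]
    [Algebra N M] [IsGalois N M] (S : Finset ℕ)
    (hsplit : ∀ P : Ideal (𝓞 N), P.IsPrime → (absNorm P).Prime → absNorm P ∉ S →
      SplitsCompletely N M P) {s : ℝ} (hs : 1 < s) (X : ℕ) :
    (∏ P ∈ (primesLE N X).filter (fun P ↦ (absNorm P).Prime ∧ absNorm P ∉ S),
      eulerFactor N s P) ^ Module.finrank N M ≤ zetaR M s := by
  classical
  obtain ⟨T, hT, hprod⟩ := main_exists_finset N M s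
    ((primesLE N X).filter (fun P ↦ (absNorm P).Prime ∧ absNorm P ∉ S)) (by
      intro P hP
      rw [Finset.mem_filter, mem_primesLE] at hP
      exact ⟨hP.1.1, hP.1.2.1, hsplit P hP.1.1 hP.2.1 hP.2.2⟩)
  rw [← hprod]
  exact prod_eulerFactor_le_zetaR M hs T (fun Q hQ => ⟨(hT Q hQ).1, (hT Q hQ).2.1⟩)

/-- Under the same hypothesis: `zetaR N s ^ [M:N] ≤ C * zetaR M s` for all `s > 1`. -/
theorem exists_zetaR_pow_le (N M : Type*) [Field N] [NumberField N] [Field M] [NumberField M]
    [Algebra N M] [IsGalois N M] (S : Finset ℕ)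
    (hsplit : ∀ P : Ideal (𝓞 N), P.IsPrime → (absNorm P).Prime → absNorm P ∉ S →
      SplitsCompletely N M P) :
    ∃ C : ℝ, ∀ s : ℝ, 1 < s → zetaR N s ^ Module.finrank N M ≤ C * zetaR M s := by
  classical
  obtain ⟨C₀, hC₀, hbound⟩ := exists_bound_good N S
  refine ⟨C₀ ^ Module.finrank N M, fun s hs => ?_⟩
  have hdpos : 0 < Module.finrank N M := Module.finrank_pos
  have hd0 : ((Module.finrank N M : ℕ) : ℝ) ≠ 0 := by exact_mod_cast hdpos.ne'
  have hM : 0 ≤ zetaR M s := main_zetaR_nonneg M s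
  have hN : 0 ≤ zetaR N s := main_zetaR_nonneg N s
  obtain ⟨r, hr0, hrd⟩ : ∃ r : ℝ, 0 ≤ r ∧ r ^ Module.finrank N M = zetaR M s := by
    refine ⟨zetaR M s ^ ((Module.finrank N M : ℝ)⁻¹), Real.rpow_nonneg hM _, ?_⟩
    rw [← Real.rpow_natCast, ← Real.rpow_mul hM, inv_mul_cancel₀ hd0, Real.rpow_one]
  have key : ∀ X : ℕ, ∏ P ∈ primesLE N X, eulerFactor N s P ≤ C₀ * r := by
    intro X
    refine (hbound s hs X).trans ?_
    refine mul_le_mul_of_nonneg_left ?_ (by linarith)
    have h1 := prod_good_pow_le_zetaR N M S hsplit hs X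
    rw [← hrd] at h1
    exact le_of_pow_le_pow_left₀ hdpos.ne' hr0 h1
  have h2 : zetaR N s ≤ C₀ * r := zetaR_le_of_prod_le N hs (C₀ * r) key
  calc zetaR N s ^ Module.finrank N M ≤ (C₀ * r) ^ Module.finrank N M :=
        pow_le_pow_left₀ hN h2 _
    _ = C₀ ^ Module.finrank N M * zetaR M s := by rw [mul_pow, hrd]

/-- **Split density.** -/
theorem main (N M : Type*) [Field N] [NumberField N] [Field M] [NumberField M] [Algebra N M]
    [IsGalois N M] (h : 1 < Module.finrank N M) (S : Finset ℕ) :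
    ∃ P : Ideal (𝓞 N), P.IsPrime ∧ (Ideal.absNorm P).Prime ∧ Ideal.absNorm P ∉ S ∧
      ¬ SplitsCompletely N M P := by
  by_contra hcon
  have hsplit : ∀ P : Ideal (𝓞 N), P.IsPrime → (absNorm P).Prime → absNorm P ∉ S →
      SplitsCompletely N M P := by
    intro P hP hN hS
    by_contra hns
    exact hcon ⟨P, hP, hN, hS, hns⟩
  obtain ⟨C, hC⟩ := exists_zetaR_pow_le N M S hsplit
  exact false_of_pow_le (f := zetaR N) (g := zetaR M) h (dedekindZeta_residue_pos N)
    (tendsto_sub_one_mul_zetaR N) (tendsto_sub_one_mul_zetaR M) hC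

end Fermat.Agent.S14.Density
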