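import Fermat.Agent.S14.Density.Defs

/-!
# S14 / Density: primes of absolute degree `≥ 2` contribute a bounded factor (worker file)
-/

set_option autoImplicit false

namespace Fermat.Agent.S14.Density

open NumberField Ideal

variable (K : Type*) [Field K] [NumberField K]

/-- A nonzero prime has norm `≥ 2`. -/
theorem boundDeg_two_le_absNorm {P : Ideal (𝓞 K)} (hP : P.IsPrime) (hP0 : P ≠ ⊥) :
    2 ≤ absNorm P := by
  have h0 : absNorm P ≠ 0 := by
    rw [Ne, Ideal.absNorm_eq_zero_iff]; exact hP0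
  have h1 : absNorm P ≠ 1 := by
    rw [Ne, Ideal.absNorm_eq_one_iff]; exact hP.ne_top
  omega

/-- Key real inequality: for `2 ≤ m ≤ N(P)` and `s > 1`, the Euler factor at `P` lies in
`[1, (1 - m⁻¹)⁻¹]`. -/
theorem boundDeg_eulerFactor_bounds {s : ℝ} (hs : 1 < s) {P : Ideal (𝓞 K)} {m : ℕ} (hm : 2 ≤ m)
    (hmP : m ≤ absNorm P) :
    1 ≤ eulerFactor K s P ∧ eulerFactor K s P ≤ (1 - ((m : ℝ))⁻¹)⁻¹ := by
  unfold eulerFactor nterm
  have hm' : (2 : ℝ) ≤ m := by exact_mod_cast hm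
  have hN : (m : ℝ) ≤ (absNorm P : ℝ) := by exact_mod_cast hmP
  have hN1 : (1 : ℝ) ≤ (absNorm P : ℝ) := by linarith
  have hpow : (absNorm P : ℝ) ≤ (absNorm P : ℝ) ^ s := by
    calc (absNorm P : ℝ) = (absNorm P : ℝ) ^ (1 : ℝ) := (Real.rpow_one _).symm
      _ ≤ (absNorm P : ℝ) ^ s := Real.rpow_le_rpow_of_exponent_le hN1 hs.le
  have hmpos : (0 : ℝ) < m := by linarith
  have hpos : (0 : ℝ) < (absNorm P : ℝ) ^ s := by linarith
  have h0 : 0 < ((absNorm P : ℝ) ^ s)⁻¹ := inv_pos.mpr hpos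
  have h1 : ((absNorm P : ℝ) ^ s)⁻¹ ≤ (m : ℝ)⁻¹ := by
    apply inv_anti₀ hmpos; linarith
  have h2 : (m : ℝ)⁻¹ ≤ 1 / 2 := by
    rw [one_div]; exact inv_anti₀ (by norm_num) hm'
  constructor
  · rw [one_le_inv₀ (by linarith)]; linarith
  · apply inv_anti₀
    · linarith
    · linarith

/-- The Euler factors are `≥ 1` at nonzero primes (`s > 1`). -/
theorem one_le_eulerFactor {s : ℝ} (hs : 1 < s) {P : Ideal (𝓞 K)} (hP : P.IsPrime) (hP0 : P ≠ ⊥) :
    1 ≤ eulerFactor K s P :=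
  (boundDeg_eulerFactor_bounds K hs le_rfl (boundDeg_two_le_absNorm K hP hP0)).1

/-- Telescoping product `∏_{k=2}^{X+1} (1 - k⁻²)⁻¹ = 2 (X + 1) / (X + 2)`. -/
theorem boundDeg_telescope_eq (X : ℕ) :
    ∏ k ∈ Finset.Icc 2 (X + 1), (1 - (((k : ℕ) : ℝ) ^ 2)⁻¹)⁻¹ =
      2 * ((X : ℝ) + 1) / ((X : ℝ) + 2) := by
  induction X with
  | zero => simp
  | succ X ih =>
    rw [Finset.prod_Icc_succ_top (by omega), ih]
    have h1 : ((X : ℝ) + 1) ≠ 0 := by positivity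
    have h2 : ((X : ℝ) + 2) ≠ 0 := by positivity
    have h3 : ((X : ℝ) + 3) ≠ 0 := by positivity
    push_cast
    have h4 : ((X : ℝ) + 1 + 1) ^ 2 ≠ 0 := by positivity
    have h5 : (1 - (((X : ℝ) + 1 + 1) ^ 2)⁻¹) =
        ((X : ℝ) + 1) * ((X : ℝ) + 3) / ((X : ℝ) + 1 + 1) ^ 2 := by
      field_simp
      ring
    rw [h5]
    field_simp
    ring

/-- The telescoping product `∏_{k=2}^{X} (1 - k⁻²)⁻¹` is at most `2`. -/
theorem boundDeg_telescope_le (X : ℕ) :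
    ∏ k ∈ Finset.Icc 2 X, (1 - (((k : ℕ) : ℝ) ^ 2)⁻¹)⁻¹ ≤ 2 := by
  rcases X with _ | X
  · simp
  · rw [boundDeg_telescope_eq]
    have h2 : (0 : ℝ) < ((X : ℝ) + 2) := by positivity
    rw [div_le_iff₀ h2]
    linarith

/-- Finitely many primes of `𝓞 K` lie over a given ideal of `ℤ`. -/
theorem boundDeg_finite_primesOver (p : Ideal ℤ) : (p.primesOver (𝓞 K)).Finite :=
  Algebra.QuasiFinite.finite_primesOver p

/-- At most `[K : ℚ]` primes of `𝓞 K` lie over a given prime of `ℤ`. -/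
theorem boundDeg_ncard_primesOver_le (p : Ideal ℤ) [p.IsPrime] :
    (p.primesOver (𝓞 K)).ncard ≤ Module.finrank ℚ K := by
  let _ : Fintype (p.primesOver (𝓞 K)) := (boundDeg_finite_primesOver K p).fintype
  rw [← Nat.card_coe_set_eq, Nat.card_eq_fintype_card, ← RingOfIntegers.rank K,
    ← Ideal.sum_ramification_inertia_eq_finrank p (𝓞 K), Fintype.card_eq_sum_ones]
  refine Finset.sum_le_sum fun q _ ↦ ?_
  exact Nat.one_le_iff_ne_zero.mpr
    (Nat.mul_ne_zero (ramificationIdx_pos q.1 ℤ).ne' (inertiaDeg_pos q.1 ℤ).ne')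

/-- The primes in a finite set `F` of primes lying over the same rational prime `ℓ` are at most
`[K : ℚ]`. -/
theorem boundDeg_card_fibre_le (F : Finset (Ideal (𝓞 K))) (hF : ∀ P ∈ F, P.IsPrime) (ℓ : ℕ) :
    (F.filter (fun P ↦ absNorm (under ℤ P) = ℓ)).card ≤ Module.finrank ℚ K := by
  classical
  rcases (F.filter (fun P ↦ absNorm (under ℤ P) = ℓ)).eq_empty_or_nonempty with h | ⟨P₀, hP₀⟩
  · rw [h]; simp
  · rw [Finset.mem_filter] at hP₀
    have hP₀' : P₀.IsPrime := hF P₀ hP₀.1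
    have hp : (under ℤ P₀).IsPrime := hP₀'.under ℤ
    refine le_trans ?_ (boundDeg_ncard_primesOver_le K (under ℤ P₀))
    rw [← Set.ncard_coe_finset]
    apply Set.ncard_le_ncard _ (boundDeg_finite_primesOver K _)
    intro P hP
    rw [Finset.mem_coe, Finset.mem_filter] at hP
    refine ⟨hF P hP.1, ⟨?_⟩⟩
    rw [← Int.ideal_span_absNorm_eq_self (under ℤ P₀),
      ← Int.ideal_span_absNorm_eq_self (under ℤ P), hP.2, hP₀.2]

/-- A nonzero prime `P` of norm `≤ X`, not of prime norm, lies over a rational prime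
`ℓ ∈ [2, X]` with `ℓ ^ 2 ≤ N(P)`. -/
theorem boundDeg_under_spec {X : ℕ} {P : Ideal (𝓞 K)} (hP : P.IsPrime) (hP0 : P ≠ ⊥)
    (hPX : absNorm P ≤ X) (hnp : ¬ (absNorm P).Prime) :
    absNorm (under ℤ P) ∈ Finset.Icc 2 X ∧ absNorm (under ℤ P) ^ 2 ≤ absNorm P := by
  have hne : NeZero P := ⟨hP0⟩
  have hprime : (absNorm (under ℤ P)).Prime := Nat.absNorm_under_prime P
  have hpow : absNorm (under ℤ P) ^ P.inertiaDeg ℤ = absNorm P :=
    Ideal.pow_inertiaDeg (absNorm (under ℤ P)) P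
  have hf0 : 0 < P.inertiaDeg ℤ := inertiaDeg_pos P ℤ
  have hf1 : P.inertiaDeg ℤ ≠ 1 := by
    intro h1
    rw [h1, pow_one] at hpow
    exact hnp (hpow ▸ hprime)
  have hf2 : 2 ≤ P.inertiaDeg ℤ := by omega
  have hle2 : absNorm (under ℤ P) ^ 2 ≤ absNorm P := by
    rw [← hpow]
    exact Nat.pow_le_pow_right hprime.pos hf2
  refine ⟨Finset.mem_Icc.mpr ⟨hprime.two_le, ?_⟩, hle2⟩
  calc absNorm (under ℤ P) ≤ absNorm (under ℤ P) ^ 2 := Nat.le_self_pow (by norm_num) _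
    _ ≤ absNorm P := hle2
    _ ≤ X := hPX

/-- Primes of absolute degree `≥ 2`: the partial Euler products over the nonzero primes of norm
`≤ X` whose norm is not a prime number are bounded by `2 ^ [K : ℚ]`, uniformly in `s > 1`, `X`. -/
theorem prod_eulerFactor_deg_ge_two_le {s : ℝ} (hs : 1 < s) (X : ℕ) :
    ∏ P ∈ (primesLE K X).filter (fun P ↦ ¬ (absNorm P).Prime), eulerFactor K s P
      ≤ 2 ^ Module.finrank ℚ K := by
  classical
  have hF : ∀ P ∈ (primesLE K X).filter (fun P ↦ ¬ (absNorm P).Prime),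
      P.IsPrime ∧ P ≠ ⊥ ∧ absNorm P ≤ X ∧ ¬ (absNorm P).Prime := by
    intro P hP
    rw [Finset.mem_filter, mem_primesLE] at hP
    exact ⟨hP.1.1, hP.1.2.1, hP.1.2.2, hP.2⟩
  have hmaps : ∀ P ∈ (primesLE K X).filter (fun P ↦ ¬ (absNorm P).Prime),
      absNorm (under ℤ P) ∈ Finset.Icc 2 X := fun P hP ↦
    (boundDeg_under_spec K (hF P hP).1 (hF P hP).2.1 (hF P hP).2.2.1 (hF P hP).2.2.2).1
  have hnonneg : ∀ P ∈ (primesLE K X).filter (fun P ↦ ¬ (absNorm P).Prime),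
      0 ≤ eulerFactor K s P := fun P hP ↦
    zero_le_one.trans (one_le_eulerFactor K hs (hF P hP).1 (hF P hP).2.1)
  have hh1 : ∀ ℓ ∈ Finset.Icc 2 X, (1 : ℝ) ≤ (1 - (((ℓ : ℕ) : ℝ) ^ 2)⁻¹)⁻¹ := by
    intro ℓ hℓ
    have hℓ2 : (2 : ℝ) ≤ ℓ := by exact_mod_cast (Finset.mem_Icc.mp hℓ).1
    have h4 : (1 : ℝ) ≤ (ℓ : ℝ) ^ 2 := by nlinarith
    have h5 : (((ℓ : ℕ) : ℝ) ^ 2)⁻¹ ≤ 1 := inv_le_one_of_one_le₀ h4
    have h6 : 0 < (((ℓ : ℕ) : ℝ) ^ 2)⁻¹ := by positivity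
    have h7 : (((ℓ : ℕ) : ℝ) ^ 2)⁻¹ < 1 := by
      apply inv_lt_one_of_one_lt₀; nlinarith
    rw [one_le_inv₀ (by linarith)]
    linarith
  calc ∏ P ∈ (primesLE K X).filter (fun P ↦ ¬ (absNorm P).Prime), eulerFactor K s P
      = ∏ ℓ ∈ Finset.Icc 2 X, ∏ P ∈ ((primesLE K X).filter (fun P ↦ ¬ (absNorm P).Prime)).filter
          (fun P ↦ absNorm (under ℤ P) = ℓ), eulerFactor K s P :=
        (Finset.prod_fiberwise_of_maps_to hmaps _).symm
    _ ≤ ∏ ℓ ∈ Finset.Icc 2 X, (1 - (((ℓ : ℕ) : ℝ) ^ 2)⁻¹)⁻¹ ^ Module.finrank ℚ K := by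
        apply Finset.prod_le_prod
        · intro ℓ _
          exact Finset.prod_nonneg fun P hP ↦ hnonneg P (Finset.mem_filter.mp hP).1
        · intro ℓ hℓ
          calc ∏ P ∈ ((primesLE K X).filter (fun P ↦ ¬ (absNorm P).Prime)).filter
                (fun P ↦ absNorm (under ℤ P) = ℓ), eulerFactor K s P
              ≤ ∏ _P ∈ ((primesLE K X).filter (fun P ↦ ¬ (absNorm P).Prime)).filter
                (fun P ↦ absNorm (under ℤ P) = ℓ), (1 - (((ℓ : ℕ) : ℝ) ^ 2)⁻¹)⁻¹ := by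
                apply Finset.prod_le_prod
                · exact fun P hP ↦ hnonneg P (Finset.mem_filter.mp hP).1
                · intro P hP
                  rw [Finset.mem_filter] at hP
                  obtain ⟨hP, rfl⟩ := hP
                  have hspec := boundDeg_under_spec K (hF P hP).1 (hF P hP).2.1 (hF P hP).2.2.1
                    (hF P hP).2.2.2
                  have h2 : 2 ≤ absNorm (under ℤ P) ^ 2 :=
                    (Finset.mem_Icc.mp hspec.1).1.trans (Nat.le_self_pow (by norm_num) _)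
                  have := (boundDeg_eulerFactor_bounds K hs h2 hspec.2).2
                  rwa [Nat.cast_pow] at this
            _ = (1 - (((ℓ : ℕ) : ℝ) ^ 2)⁻¹)⁻¹ ^ (((primesLE K X).filter
                (fun P ↦ ¬ (absNorm P).Prime)).filter
                (fun P ↦ absNorm (under ℤ P) = ℓ)).card := Finset.prod_const _
            _ ≤ (1 - (((ℓ : ℕ) : ℝ) ^ 2)⁻¹)⁻¹ ^ Module.finrank ℚ K :=
                pow_le_pow_right₀ (hh1 ℓ hℓ)
                  (boundDeg_card_fibre_le K _ (fun P hP ↦ (hF P hP).1) ℓ)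
    _ = (∏ ℓ ∈ Finset.Icc 2 X, (1 - (((ℓ : ℕ) : ℝ) ^ 2)⁻¹)⁻¹) ^ Module.finrank ℚ K :=
        Finset.prod_pow _ _ _
    _ ≤ 2 ^ Module.finrank ℚ K :=
        pow_le_pow_left₀ (Finset.prod_nonneg fun ℓ hℓ ↦ zero_le_one.trans (hh1 ℓ hℓ))
          (boundDeg_telescope_le X) _

end Fermat.Agent.S14.Density
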