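import Fermat.Agent.S14.Defs

/-!
# S14 / Density (T4, sub-architect helper16): common definitions

Real-variable Dedekind zeta function `zetaR K s = ∑_n #{I : N(I) = n} / n^s`, the term
`nterm K s I = N(I)^(-s)`, the Euler factor `eulerFactor K s P = (1 - N(P)^(-s))⁻¹` and the finite
set `primesLE K X` of nonzero primes of norm `≤ X`.  Complete; nothing to prove here except the
two small API lemmas at the end (proved).
-/

set_option autoImplicit false

namespace Fermat.Agent.S14.Density

open NumberField Ideal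

variable (K : Type*) [Field K] [NumberField K]

/-- The real Dedekind zeta function `∑_n #{I : N(I) = n} / n^s` (a `tsum` over `n : ℕ`; the term
`n = 0` vanishes because of the division by `0 ^ s = 0`). -/
noncomputable def zetaR (s : ℝ) : ℝ :=
  ∑' n : ℕ, (Nat.card {I : Ideal (𝓞 K) // absNorm I = n} : ℝ) / (n : ℝ) ^ s

/-- `N(I)^(-s)`. -/
noncomputable def nterm (s : ℝ) (I : Ideal (𝓞 K)) : ℝ := ((absNorm I : ℝ) ^ s)⁻¹

/-- The Euler factor `(1 - N(P)^(-s))⁻¹`. -/
noncomputable def eulerFactor (s : ℝ) (P : Ideal (𝓞 K)) : ℝ := (1 - nterm K s P)⁻¹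

theorem finite_primesLE (X : ℕ) :
    {P : Ideal (𝓞 K) | P.IsPrime ∧ P ≠ ⊥ ∧ absNorm P ≤ X}.Finite :=
  (Ideal.finite_setOfPred_absNorm_le (S := 𝓞 K) X).subset fun _ hP => hP.2.2

/-- The finite set of nonzero prime ideals of norm `≤ X`. -/
noncomputable def primesLE (X : ℕ) : Finset (Ideal (𝓞 K)) := (finite_primesLE K X).toFinset

variable {K}

@[simp]
theorem mem_primesLE {X : ℕ} {P : Ideal (𝓞 K)} :
    P ∈ primesLE K X ↔ P.IsPrime ∧ P ≠ ⊥ ∧ absNorm P ≤ X := by
  simp [primesLE]

end Fermat.Agent.S14.Density
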