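import Fermat.Agent.S14.Density.Defs

/-!
# S14 / Density: finite Euler expansion = unique factorisation of ideals (worker file)
-/

set_option autoImplicit false

namespace Fermat.Agent.S14.Density

open NumberField Ideal

variable (K : Type*) [Field K] [NumberField K]

theorem nterm_mul (s : ℝ) (I J : Ideal (𝓞 K)) : nterm K s (I * J) = nterm K s I * nterm K s J := by
  unfold nterm
  rw [map_mul, Nat.cast_mul, Real.mul_rpow (Nat.cast_nonneg _) (Nat.cast_nonneg _), mul_inv]

theorem expand_nterm_one (s : ℝ) : nterm K s (1 : Ideal (𝓞 K)) = 1 := by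
  unfold nterm
  rw [map_one, Nat.cast_one, Real.one_rpow, inv_one]

theorem nterm_pow (s : ℝ) (I : Ideal (𝓞 K)) (e : ℕ) : nterm K s (I ^ e) = nterm K s I ^ e := by
  induction e with
  | zero => rw [pow_zero, pow_zero, expand_nterm_one]
  | succ n ih => rw [pow_succ, pow_succ, nterm_mul, ih]

theorem expand_nterm_prod {ι : Type*} (s : ℝ) (S : Finset ι) (f : ι → Ideal (𝓞 K)) :
    nterm K s (∏ i ∈ S, f i) = ∏ i ∈ S, nterm K s (f i) := by
  classical
  induction S using Finset.induction_on with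
  | empty => rw [Finset.prod_empty, Finset.prod_empty, expand_nterm_one]
  | insert a S ha ih => rw [Finset.prod_insert ha, Finset.prod_insert ha, nterm_mul, ih]

theorem expand_emultiplicity_prod (T : Finset (Ideal (𝓞 K))) (hT : ∀ P ∈ T, P.IsPrime ∧ P ≠ ⊥)
    (e : T → ℕ) (P₀ : T) :
    emultiplicity (P₀ : Ideal (𝓞 K)) (∏ P : T, (P : Ideal (𝓞 K)) ^ e P) = e P₀ := by
  classical
  have hp : Prime (P₀ : Ideal (𝓞 K)) := Ideal.prime_of_isPrime (hT _ P₀.2).2 (hT _ P₀.2).1
  rw [Finset.emultiplicity_prod hp, Finset.sum_eq_single P₀]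
  · exact emultiplicity_pow_self_of_prime hp _
  · intro Q _ hQ
    rw [emultiplicity_eq_zero]
    intro hdvd
    have h1 : (P₀ : Ideal (𝓞 K)) ∣ Q := hp.dvd_of_dvd_pow hdvd
    have h2 : (Q : Ideal (𝓞 K)) ≤ P₀ := Ideal.dvd_iff_le.mp h1
    have hQmax : (Q : Ideal (𝓞 K)).IsMaximal := (hT _ Q.2).1.isMaximal (hT _ Q.2).2
    exact hQ (Subtype.ext (hQmax.eq_of_le (hT _ P₀.2).1.ne_top h2))
  · intro h
    exact absurd (Finset.mem_univ _) h

/-- **Finite Euler expansion.**  For a finite set `T` of nonzero primes and an exponent bound `E`,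
the ideals `∏_{P ∈ T} P^(e_P)` with `0 ≤ e_P ≤ E` are pairwise distinct and
`∏_{P ∈ T} ∑_{e ≤ E} N(P)^(-es)` is the sum of `N(I)^(-s)` over these ideals.  The set `A` of these
ideals contains every nonzero ideal `I` all of whose prime divisors `P` lie in `T` and satisfy
`P^(E+1) ∤ I` (`I ≤ J` means `J ∣ I`). -/
theorem exists_expand (T : Finset (Ideal (𝓞 K))) (hT : ∀ P ∈ T, P.IsPrime ∧ P ≠ ⊥) (E : ℕ)
    (s : ℝ) :
    ∃ A : Finset (Ideal (𝓞 K)), (∀ I ∈ A, I ≠ ⊥) ∧
      (∀ I : Ideal (𝓞 K), I ≠ ⊥ →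
        (∀ P : Ideal (𝓞 K), P.IsPrime → P ≠ ⊥ → I ≤ P → P ∈ T ∧ ¬ I ≤ P ^ (E + 1)) → I ∈ A) ∧
      ∑ I ∈ A, nterm K s I = ∏ P ∈ T, ∑ e ∈ Finset.range (E + 1), nterm K s P ^ e := by
  classical
  let φ : (T → Fin (E + 1)) → Ideal (𝓞 K) := fun e => ∏ P : T, (P : Ideal (𝓞 K)) ^ (e P : ℕ)
  have hφ : Function.Injective φ := by
    intro e e' h
    funext P₀
    have h1 := expand_emultiplicity_prod K T hT (fun P => (e P : ℕ)) P₀
    have h2 := expand_emultiplicity_prod K T hT (fun P => (e' P : ℕ)) P₀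
    have h3 : ((e P₀ : ℕ) : ℕ∞) = ((e' P₀ : ℕ) : ℕ∞) := by
      rw [← h1, ← h2]
      exact congrArg _ h
    exact Fin.ext (by exact_mod_cast h3)
  refine ⟨Finset.univ.image φ, ?_, ?_, ?_⟩
  · intro I hI
    obtain ⟨e, -, rfl⟩ := Finset.mem_image.mp hI
    rw [← Ideal.zero_eq_bot]
    exact Finset.prod_ne_zero_iff.mpr fun P _ => pow_ne_zero _ (hT _ P.2).2
  · intro I hI h
    have hcount : ∀ P : T, Multiset.count (P : Ideal (𝓞 K))
        (UniqueFactorizationMonoid.normalizedFactors I) < E + 1 := by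
      intro P
      by_contra hge
      have hge' : E + 1 ≤ Multiset.count (P : Ideal (𝓞 K))
          (UniqueFactorizationMonoid.normalizedFactors I) := not_lt.mp hge
      have hdvd : (P : Ideal (𝓞 K)) ^ (E + 1) ∣ I := by
        have h1 := Multiset.prod_dvd_prod_of_le (Multiset.le_count_iff_replicate_le.mp hge')
        rwa [Multiset.prod_replicate, Ideal.prod_normalizedFactors_eq_self hI] at h1
      have hle : I ≤ (P : Ideal (𝓞 K)) ^ (E + 1) := Ideal.dvd_iff_le.mp hdvd
      have hle1 : I ≤ (P : Ideal (𝓞 K)) := hle.trans (Ideal.pow_le_self (Nat.succ_ne_zero E))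
      exact (h P (hT _ P.2).1 (hT _ P.2).2 hle1).2 hle
    refine Finset.mem_image.mpr ⟨fun P => ⟨_, hcount P⟩, Finset.mem_univ _, ?_⟩
    show ∏ P : T, (P : Ideal (𝓞 K)) ^ Multiset.count (P : Ideal (𝓞 K))
        (UniqueFactorizationMonoid.normalizedFactors I) = I
    rw [Finset.prod_coe_sort T
      (fun P => P ^ Multiset.count P (UniqueFactorizationMonoid.normalizedFactors I))]
    rw [← Finset.prod_multiset_count_of_subset]
    · exact Ideal.prod_normalizedFactors_eq_self hI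
    · intro P hP
      rw [Multiset.mem_toFinset, Ideal.mem_normalizedFactors_iff hI] at hP
      have hPbot : P ≠ ⊥ := by
        rintro rfl
        exact hI (le_bot_iff.mp hP.2)
      exact (h P hP.1 hPbot hP.2).1
  · rw [Finset.sum_image (fun a _ b _ hab => hφ hab)]
    rw [← Finset.prod_coe_sort T (fun P => ∑ e ∈ Finset.range (E + 1), nterm K s P ^ e)]
    simp_rw [Finset.sum_range]
    rw [Finset.prod_univ_sum, Fintype.piFinset_univ]
    refine Finset.sum_congr rfl fun e _ => ?_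
    show nterm K s (∏ P : T, (P : Ideal (𝓞 K)) ^ (e P : ℕ)) = _
    rw [expand_nterm_prod]
    exact Finset.prod_congr rfl fun P _ => nterm_pow K s _ _

end Fermat.Agent.S14.Density
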