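import Fermat.Agent.S14.Density.ZetaSum
import Fermat.Agent.S14.Density.Expand

/-!
# S14 / Density: Euler product inequalities for `zetaR` (worker file)
-/

set_option autoImplicit false

namespace Fermat.Agent.S14.Density

open NumberField Ideal

variable (K : Type*) [Field K] [NumberField K]

/-- The absolute norm of a nonzero prime ideal is at least `2`. -/
theorem euler_two_le_absNorm {P : Ideal (𝓞 K)} (hP : P.IsPrime) (hP0 : P ≠ ⊥) :
    2 ≤ absNorm P := by
  have h0 : absNorm P ≠ 0 := fun h => hP0 (Ideal.absNorm_eq_zero_iff.mp h)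
  have h1 : absNorm P ≠ 1 := fun h => hP.ne_top (Ideal.absNorm_eq_one_iff.mp h)
  omega

/-- `N(I)^(-s) ≥ 0`. -/
theorem euler_nterm_nonneg (s : ℝ) (I : Ideal (𝓞 K)) : 0 ≤ nterm K s I := by
  unfold nterm
  exact inv_nonneg.mpr (Real.rpow_nonneg (Nat.cast_nonneg _) _)

/-- Partial geometric sums are bounded by the full geometric series. -/
theorem euler_geom_sum_le {x : ℝ} (h0 : 0 ≤ x) (h1 : x < 1) (n : ℕ) :
    ∑ e ∈ Finset.range n, x ^ e ≤ (1 - x)⁻¹ :=
  sum_le_hasSum _ (fun i _ => pow_nonneg h0 i) (hasSum_geometric_of_lt_one h0 h1)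

/-- Partial geometric sums converge to the full geometric series. -/
theorem euler_tendsto_geom_sum {x : ℝ} (h0 : 0 ≤ x) (h1 : x < 1) :
    Filter.Tendsto (fun E : ℕ => ∑ e ∈ Finset.range (E + 1), x ^ e) Filter.atTop
      (nhds (1 - x)⁻¹) :=
  ((hasSum_geometric_of_lt_one h0 h1).tendsto_sum_nat).comp (Filter.tendsto_add_atTop_nat 1)

/-- `0 < N(P)^(-s) ≤ 1/2` for a nonzero prime `P` and `s > 1` (indeed `N(P) ≥ 2`). -/
theorem nterm_prime_bounds {s : ℝ} (hs : 1 < s) {P : Ideal (𝓞 K)} (hP : P.IsPrime) (hP0 : P ≠ ⊥) :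
    0 < nterm K s P ∧ nterm K s P ≤ 1 / 2 := by
  have h2 : (2 : ℝ) ≤ (absNorm P : ℝ) := by exact_mod_cast euler_two_le_absNorm K hP hP0
  have h1 : (1 : ℝ) ≤ (absNorm P : ℝ) := by linarith
  have h3 : (absNorm P : ℝ) ≤ (absNorm P : ℝ) ^ s := Real.self_le_rpow_of_one_le h1 hs.le
  have h4 : (2 : ℝ) ≤ (absNorm P : ℝ) ^ s := h2.trans h3
  have h5 : (0 : ℝ) < (absNorm P : ℝ) ^ s := by linarith
  unfold nterm
  refine ⟨inv_pos.mpr h5, ?_⟩
  rw [one_div]
  exact inv_anti₀ (by norm_num) h4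

/-- Lower bound: any finite partial Euler product is `≤ zetaR K s`. -/
theorem prod_eulerFactor_le_zetaR {s : ℝ} (hs : 1 < s) (T : Finset (Ideal (𝓞 K)))
    (hT : ∀ P ∈ T, P.IsPrime ∧ P ≠ ⊥) : ∏ P ∈ T, eulerFactor K s P ≤ zetaR K s := by
  have hlim : Filter.Tendsto
      (fun E : ℕ => ∏ P ∈ T, ∑ e ∈ Finset.range (E + 1), nterm K s P ^ e)
      Filter.atTop (nhds (∏ P ∈ T, eulerFactor K s P)) := by
    refine tendsto_finsetProd T fun P hP => ?_
    obtain ⟨hpos, hle⟩ := nterm_prime_bounds K hs (hT P hP).1 (hT P hP).2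
    exact euler_tendsto_geom_sum hpos.le (by linarith)
  refine le_of_tendsto' hlim fun E => ?_
  obtain ⟨A, hA0, -, hsum⟩ := exists_expand K T hT E s
  rw [← hsum]
  exact sum_nterm_le_zetaR K hs A hA0

/-- Upper bound: if all the partial Euler products over the primes of norm `≤ X` are `≤ B`,
then `zetaR K s ≤ B`. -/
theorem zetaR_le_of_prod_le {s : ℝ} (hs : 1 < s) (B : ℝ)
    (hB : ∀ X : ℕ, ∏ P ∈ primesLE K X, eulerFactor K s P ≤ B) : zetaR K s ≤ B := by
  refine zetaR_le_of_forall_sum_le K hs B fun X A hA => ?_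
  have hT : ∀ P ∈ primesLE K X, P.IsPrime ∧ P ≠ ⊥ := fun P hP =>
    ⟨(mem_primesLE.mp hP).1, (mem_primesLE.mp hP).2.1⟩
  obtain ⟨A', -, hA'mem, hsum⟩ := exists_expand K (primesLE K X) hT X s
  have hsub : A ⊆ A' := by
    intro I hI
    obtain ⟨hI0, hIX⟩ := hA I hI
    have hN0 : absNorm I ≠ 0 := fun h => hI0 (Ideal.absNorm_eq_zero_iff.mp h)
    refine hA'mem I hI0 fun P hP hP0 hIP => ⟨?_, ?_⟩
    · have hdvd : absNorm P ∣ absNorm I := Ideal.absNorm_dvd_absNorm_of_le hIP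
      have hle : absNorm P ≤ absNorm I := Nat.le_of_dvd (Nat.pos_of_ne_zero hN0) hdvd
      exact mem_primesLE.mpr ⟨hP, hP0, hle.trans hIX⟩
    · intro hIPE
      have hdvd : absNorm (P ^ (X + 1)) ∣ absNorm I := Ideal.absNorm_dvd_absNorm_of_le hIPE
      rw [map_pow] at hdvd
      have hle : absNorm P ^ (X + 1) ≤ absNorm I :=
        Nat.le_of_dvd (Nat.pos_of_ne_zero hN0) hdvd
      have h2 : 2 ^ (X + 1) ≤ absNorm P ^ (X + 1) :=
        Nat.pow_le_pow_left (euler_two_le_absNorm K hP hP0) _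
      have h3 : X + 1 < 2 ^ (X + 1) := Nat.lt_two_pow_self
      omega
  calc ∑ I ∈ A, nterm K s I ≤ ∑ I ∈ A', nterm K s I :=
        Finset.sum_le_sum_of_subset_of_nonneg hsub fun I _ _ => euler_nterm_nonneg K s I
    _ = ∏ P ∈ primesLE K X, ∑ e ∈ Finset.range (X + 1), nterm K s P ^ e := hsum
    _ ≤ ∏ P ∈ primesLE K X, eulerFactor K s P := by
        refine Finset.prod_le_prod
          (fun P _ => Finset.sum_nonneg fun e _ => pow_nonneg (euler_nterm_nonneg K s P) e)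
          fun P hP => ?_
        obtain ⟨hpos, hle⟩ := nterm_prime_bounds K hs (hT P hP).1 (hT P hP).2
        exact euler_geom_sum_le hpos.le (by linarith) _
    _ ≤ B := hB X

end Fermat.Agent.S14.Density
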