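import Fermat.Agent.S14.Density.Defs

/-!
# S14 / Density: summability of `zetaR` and the limit `(s - 1) ζ(s) → residue` (worker file)
-/

set_option autoImplicit false

namespace Fermat.Agent.S14.Density

open NumberField Ideal Filter Topology

variable (K : Type*) [Field K] [NumberField K]

/-- The averaged partial sums of the coefficients of the Dedekind zeta function converge to the
residue (this is the input of Mathlib's proof of the class number formula). -/
theorem zetaLim_tendsto_sum_div :
    Tendsto (fun n : ℕ ↦ (∑ k ∈ Finset.Icc 1 n,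
      (Nat.card {I : Ideal (𝓞 K) // absNorm I = k} : ℝ)) / (n : ℝ)) atTop
      (𝓝 (dedekindZeta_residue K)) := by
  refine ((Ideal.tendsto_norm_le_div_atTop₀ K).comp tendsto_natCast_atTop_atTop).congr fun n ↦ ?_
  simp only [Function.comp_apply, Nat.cast_le, ← Nat.cast_sum]
  congr
  rw [← add_left_inj 1, ← card_norm_le_eq_card_norm_le_add_one,
    show Finset.Icc 1 n = Finset.Ioc 0 n from Finset.Icc_succ_left_eq_Ioc _ _,
    show 1 = Nat.card {I : Ideal (𝓞 K) // absNorm I = 0} by simp [Ideal.absNorm_eq_zero_iff],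
    Finset.sum_Ioc_add_eq_sum_Icc (n.zero_le),
    ← Finset.card_preimage_eq_sum_card_image_eq (fun k _ ↦ finite_setOfPred_absNorm_eq k)]
  simp [Set.coe_eq_subtype]

/-- The L-series defining the Dedekind zeta function converges at real `s > 1`. -/
theorem zetaLim_lseriesSummable {s : ℝ} (hs : 1 < s) :
    LSeriesSummable (fun n ↦ ((Nat.card {I : Ideal (𝓞 K) // absNorm I = n} : ℝ) : ℂ)) (s : ℂ) := by
  refine LSeriesSummable_of_sum_norm_bigO_and_nonneg (r := 1) ?_ (fun _ ↦ Nat.cast_nonneg _)
    zero_le_one (by simpa using hs)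
  exact Asymptotics.isBigO_atTop_natCast_rpow_of_tendsto_div_rpow (a := dedekindZeta_residue K)
    (by simpa using zetaLim_tendsto_sum_div K)

/-- The terms of the complex L-series at a real `s ≠ 0` are the coercions of the real terms. -/
theorem zetaLim_term_eq {s : ℝ} (hs : s ≠ 0) (n : ℕ) :
    LSeries.term (fun n ↦ ((Nat.card {I : Ideal (𝓞 K) // absNorm I = n} : ℕ) : ℂ)) (s : ℂ) n =
      (((Nat.card {I : Ideal (𝓞 K) // absNorm I = n} : ℝ) / (n : ℝ) ^ s : ℝ) : ℂ) := by
  rcases eq_or_ne n 0 with rfl | hn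
  · simp [Real.zero_rpow hs]
  · rw [LSeries.term_of_ne_zero hn, Complex.ofReal_div, Complex.ofReal_cpow (Nat.cast_nonneg n),
      Complex.ofReal_natCast, Complex.ofReal_natCast]

/-- The defining series of `zetaR K s` is summable for real `s > 1`. -/
theorem summable_zetaR {s : ℝ} (hs : 1 < s) :
    Summable (fun n : ℕ ↦ (Nat.card {I : Ideal (𝓞 K) // absNorm I = n} : ℝ) / (n : ℝ) ^ s) := by
  have h := zetaLim_lseriesSummable K hs
  rw [LSeriesSummable] at h
  rw [← Complex.summable_ofReal]
  refine h.congr fun n ↦ ?_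
  rw [← zetaLim_term_eq K (by linarith : s ≠ 0) n]
  simp only [Complex.ofReal_natCast]

/-- For real `s > 1` the (complex) Dedekind zeta function is the real number `zetaR K s`. -/
theorem dedekindZeta_ofReal {s : ℝ} (hs : 1 < s) :
    dedekindZeta K (s : ℂ) = ((zetaR K s : ℝ) : ℂ) := by
  rw [dedekindZeta, LSeries, zetaR, Complex.ofReal_tsum]
  exact tsum_congr fun n ↦ zetaLim_term_eq K (by linarith : s ≠ 0) n

/-- Class number formula, real form: `(s - 1) * zetaR K s → dedekindZeta_residue K` as `s ↓ 1`. -/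
theorem tendsto_sub_one_mul_zetaR :
    Tendsto (fun s : ℝ ↦ (s - 1) * zetaR K s) (𝓝[>] 1) (𝓝 (dedekindZeta_residue K)) := by
  rw [← tendsto_ofReal_iff]
  refine (tendsto_sub_one_mul_dedekindZeta_nhdsGT K).congr' ?_
  filter_upwards [eventually_mem_nhdsWithin] with s hs
  rw [dedekindZeta_ofReal K hs, Complex.ofReal_mul, Complex.ofReal_sub, Complex.ofReal_one]

end Fermat.Agent.S14.Density
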