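import Fermat.Agent.S14.Density.ZetaLim

/-!
# S14 / Density: comparison of `zetaR` with finite sums over ideals (worker file)
-/

set_option autoImplicit false

namespace Fermat.Agent.S14.Density

open NumberField Ideal

variable (K : Type*) [Field K] [NumberField K]

/-- Membership in the finite set of ideals of norm exactly `n`. -/
theorem zetaSum_mem_fiber {n : ℕ} {I : Ideal (𝓞 K)} :
    I ∈ (Ideal.finite_setOfPred_absNorm_eq (S := 𝓞 K) n).toFinset ↔ absNorm I = n := by
  simp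

/-- The number of ideals of norm `n` is the cardinality of the corresponding finset. -/
theorem zetaSum_card_fiber (n : ℕ) :
    Nat.card {I : Ideal (𝓞 K) // absNorm I = n}
      = (Ideal.finite_setOfPred_absNorm_eq (S := 𝓞 K) n).toFinset.card :=
  Nat.card_eq_card_finite_toFinset (Ideal.finite_setOfPred_absNorm_eq (S := 𝓞 K) n)

theorem zetaSum_nterm_nonneg (s : ℝ) (I : Ideal (𝓞 K)) : 0 ≤ nterm K s I := by
  unfold nterm
  exact inv_nonneg.mpr (Real.rpow_nonneg (Nat.cast_nonneg _) _)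

/-- The `n`-th term of the series defining `zetaR K s` is the sum of `N(I)^(-s)` over the
ideals of norm `n`. -/
theorem zetaSum_term_eq (s : ℝ) (n : ℕ) :
    (Nat.card {I : Ideal (𝓞 K) // absNorm I = n} : ℝ) / (n : ℝ) ^ s
      = ∑ I ∈ (Ideal.finite_setOfPred_absNorm_eq (S := 𝓞 K) n).toFinset, nterm K s I := by
  rw [zetaSum_card_fiber, div_eq_mul_inv]
  have h : ∀ I ∈ (Ideal.finite_setOfPred_absNorm_eq (S := 𝓞 K) n).toFinset,
      nterm K s I = ((n : ℝ) ^ s)⁻¹ := by
    intro I hI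
    rw [zetaSum_mem_fiber] at hI
    simp [nterm, hI]
  rw [Finset.sum_congr rfl h, Finset.sum_const, nsmul_eq_mul]

theorem zetaSum_term_nonneg (s : ℝ) (n : ℕ) :
    0 ≤ (Nat.card {I : Ideal (𝓞 K) // absNorm I = n} : ℝ) / (n : ℝ) ^ s := by
  rw [zetaSum_term_eq]
  exact Finset.sum_nonneg fun I _ => zetaSum_nterm_nonneg K s I

theorem zetaSum_nterm_bot {s : ℝ} (hs : s ≠ 0) : nterm K s (⊥ : Ideal (𝓞 K)) = 0 := by
  simp [nterm, Real.zero_rpow hs]

/-- A finite sum of `N(I)^(-s)` over distinct nonzero ideals is at most `zetaR K s`. -/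
theorem sum_nterm_le_zetaR {s : ℝ} (hs : 1 < s) (A : Finset (Ideal (𝓞 K)))
    (hA : ∀ I ∈ A, I ≠ ⊥) : ∑ I ∈ A, nterm K s I ≤ zetaR K s := by
  classical
  have _ := hA
  have h1 : ∑ I ∈ A, nterm K s I
      = ∑ n ∈ A.image (fun I => absNorm I), ∑ I ∈ A with absNorm I = n, nterm K s I :=
    (Finset.sum_fiberwise_of_maps_to (fun I hI => Finset.mem_image_of_mem _ hI) _).symm
  have h2 : ∀ n ∈ A.image (fun I => absNorm I),
      ∑ I ∈ A with absNorm I = n, nterm K s I
        ≤ (Nat.card {I : Ideal (𝓞 K) // absNorm I = n} : ℝ) / (n : ℝ) ^ s := by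
    intro n _
    rw [zetaSum_term_eq]
    refine Finset.sum_le_sum_of_subset_of_nonneg ?_ fun I _ _ => zetaSum_nterm_nonneg K s I
    intro I hI
    rw [zetaSum_mem_fiber]
    exact (Finset.mem_filter.mp hI).2
  calc ∑ I ∈ A, nterm K s I
      = ∑ n ∈ A.image (fun I => absNorm I), ∑ I ∈ A with absNorm I = n, nterm K s I := h1
    _ ≤ ∑ n ∈ A.image (fun I => absNorm I),
          (Nat.card {I : Ideal (𝓞 K) // absNorm I = n} : ℝ) / (n : ℝ) ^ s :=
        Finset.sum_le_sum h2
    _ ≤ zetaR K s :=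
        (summable_zetaR K hs).sum_le_tsum _ fun n _ => zetaSum_term_nonneg K s n

/-- If every finite sum of `N(I)^(-s)` over nonzero ideals of bounded norm is `≤ B`, then
`zetaR K s ≤ B`. -/
theorem zetaR_le_of_forall_sum_le {s : ℝ} (hs : 1 < s) (B : ℝ)
    (hB : ∀ (X : ℕ) (A : Finset (Ideal (𝓞 K))), (∀ I ∈ A, I ≠ ⊥ ∧ absNorm I ≤ X) →
      ∑ I ∈ A, nterm K s I ≤ B) : zetaR K s ≤ B := by
  classical
  have hs0 : s ≠ 0 := by linarith
  refine Real.tsum_le_of_sum_range_le (fun n => zetaSum_term_nonneg K s n) fun m => ?_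
  have hdisj : Set.PairwiseDisjoint (↑(Finset.range m) : Set ℕ)
      (fun n : ℕ => (Ideal.finite_setOfPred_absNorm_eq (S := 𝓞 K) n).toFinset) := by
    intro a _ b _ hab
    rw [Function.onFun, Finset.disjoint_left]
    intro I hIa hIb
    rw [zetaSum_mem_fiber] at hIa hIb
    exact hab (hIa.symm.trans hIb)
  have h1 : ∑ n ∈ Finset.range m,
      (Nat.card {I : Ideal (𝓞 K) // absNorm I = n} : ℝ) / (n : ℝ) ^ s
        = ∑ I ∈ (Finset.range m).biUnion
            (fun n : ℕ => (Ideal.finite_setOfPred_absNorm_eq (S := 𝓞 K) n).toFinset),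
            nterm K s I := by
    rw [Finset.sum_biUnion hdisj]
    exact Finset.sum_congr rfl fun n _ => zetaSum_term_eq K s n
  have h2 : ∑ I ∈ ((Finset.range m).biUnion
        (fun n : ℕ => (Ideal.finite_setOfPred_absNorm_eq (S := 𝓞 K) n).toFinset)).erase ⊥,
          nterm K s I
      = ∑ I ∈ (Finset.range m).biUnion
          (fun n : ℕ => (Ideal.finite_setOfPred_absNorm_eq (S := 𝓞 K) n).toFinset),
          nterm K s I :=
    Finset.sum_erase _ (zetaSum_nterm_bot K hs0)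
  rw [h1, ← h2]
  refine hB m _ fun I hI => ?_
  rw [Finset.mem_erase, Finset.mem_biUnion] at hI
  obtain ⟨hIne, n, hn, hIn⟩ := hI
  rw [zetaSum_mem_fiber] at hIn
  rw [Finset.mem_range] at hn
  exact ⟨hIne, by omega⟩

end Fermat.Agent.S14.Density
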